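import Mathlib

/-!
# Project ES, WP-C1 (part 2): lifting primitive pairs modulo `N` to `SL(2, ℤ)`

Every pair `(x, y)` of elements of `ZMod N` generating the unit ideal is the reduction of the
first column of a matrix in `SL(2, ℤ)`.
-/

set_option autoImplicit false

namespace Fermat.Agent.S21.C1

open scoped MatrixGroups

/-- If `gcd(a₀, c₀, N) = 1` and `c₀ ≠ 0`, then some `a ≡ a₀ mod N` is coprime to `c₀`. -/
theorem exists_coprime_add_mul (N a₀ c₀ : ℕ) (hc₀ : c₀ ≠ 0)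
    (h : ∀ p : ℕ, p.Prime → p ∣ a₀ → p ∣ c₀ → ¬ p ∣ N) :
    ∃ t : ℕ, Nat.Coprime (a₀ + N * t) c₀ := by
  classical
  refine ⟨∏ p ∈ c₀.primeFactors.filter (fun p => ¬ p ∣ a₀), p, ?_⟩
  set t := ∏ p ∈ c₀.primeFactors.filter (fun p => ¬ p ∣ a₀), p with ht
  refine Nat.coprime_of_dvd fun p hp hpa hpc => ?_
  by_cases hpa₀ : p ∣ a₀
  · have hpN : ¬ p ∣ N := h p hp hpa₀ hpc
    have h1 : p ∣ N * t := (Nat.dvd_add_right hpa₀).1 hpa
    have h2 : p ∣ t := (hp.dvd_mul.1 h1).resolve_left hpN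
    rw [ht, Prime.dvd_finsetProd_iff hp.prime] at h2
    obtain ⟨q, hq, hpq⟩ := h2
    rw [Finset.mem_filter, Nat.mem_primeFactors] at hq
    have hqp : p = q := (Nat.prime_dvd_prime_iff_eq hp hq.1.1).1 hpq
    exact hq.2 (hqp ▸ hpa₀)
  · have hmem : p ∈ c₀.primeFactors.filter (fun p => ¬ p ∣ a₀) := by
      rw [Finset.mem_filter, Nat.mem_primeFactors]
      exact ⟨⟨hp, hpc, hc₀⟩, hpa₀⟩
    have h2 : p ∣ t := Finset.dvd_prod_of_mem _ hmem
    have h3 : p ∣ N * t := Dvd.dvd.mul_left h2 N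
    exact hpa₀ ((Nat.dvd_add_left h3).1 hpa)

/-- Coprime pairs modulo `N` lift to coprime pairs of natural numbers. -/
theorem exists_coprime_lift (N : ℕ) [NeZero N] (x y : ZMod N) (h : IsCoprime x y) :
    ∃ a c : ℕ, Nat.Coprime a c ∧ (a : ZMod N) = x ∧ (c : ZMod N) = y := by
  -- a nonzero lift of `y`
  obtain ⟨c₀, hc₀, hc₀y⟩ : ∃ c₀ : ℕ, c₀ ≠ 0 ∧ (c₀ : ZMod N) = y := by
    refine ⟨y.val + N, ?_, ?_⟩
    · have := NeZero.ne N
      omega
    · simp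
  set a₀ := x.val with ha₀
  have ha₀x : (a₀ : ZMod N) = x := ZMod.natCast_zmod_val x
  have key : ∀ p : ℕ, p.Prime → p ∣ a₀ → p ∣ c₀ → ¬ p ∣ N := by
    intro p hp hpa hpc hpN
    have : Fact p.Prime := ⟨hp⟩
    have h1 : IsCoprime (ZMod.castHom hpN (ZMod p) x) (ZMod.castHom hpN (ZMod p) y) :=
      IsCoprime.map h (ZMod.castHom hpN (ZMod p))
    rw [← ha₀x, ← hc₀y, map_natCast, map_natCast,
      (ZMod.natCast_eq_zero_iff a₀ p).2 hpa, (ZMod.natCast_eq_zero_iff c₀ p).2 hpc] at h1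
    exact not_isUnit_zero (isCoprime_zero_left.1 h1)
  obtain ⟨t, ht⟩ := exists_coprime_add_mul N a₀ c₀ hc₀ key
  refine ⟨a₀ + N * t, c₀, ht, ?_, hc₀y⟩
  push_cast
  simp [ha₀x]

/-- Transitivity: every primitive pair modulo `N` is the reduction of the first column of a
matrix in `SL(2, ℤ)`. -/
theorem exists_SL2_col_mod (N : ℕ) [NeZero N] (x y : ZMod N) (h : IsCoprime x y) :
    ∃ γ : SL(2, ℤ), ((γ 0 0 : ℤ) : ZMod N) = x ∧ ((γ 1 0 : ℤ) : ZMod N) = y := by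
  obtain ⟨a, c, hac, hax, hcy⟩ := exists_coprime_lift N x y h
  obtain ⟨γ, h0, h1⟩ := (Nat.isCoprime_iff_coprime.2 hac).exists_SL2_col 0
  refine ⟨γ, ?_, ?_⟩
  · rw [h0]; simpa using hax
  · rw [h1]; simpa using hcy

end Fermat.Agent.S21.C1
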