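import Fermat.Agent.S21.C1.PrimCount
import Fermat.Agent.S21.C1.Lift

/-!
# Project ES, WP-C1 (part 3): `(Gamma0 N).index = dedekindPsi N`

`SL(2, ℤ)` acts on column vectors modulo `N`.  The orbit of `e₁ = (1, 0)` is the set of primitive
vectors, the stabiliser of `e₁` has relative index `φ(N)` in `Γ₀(N)`, and the number of primitive
vectors is `φ(N) ψ(N)`.
-/

set_option autoImplicit false

namespace Fermat.Agent.S21.C1

open ModularCurve CongruenceSubgroup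
open scoped MatrixGroups

/-- Column vectors modulo `N` (a type synonym carrying the `SL(2, ℤ)`-action). -/
def Col (N : ℕ) : Type := ZMod N × ZMod N

/-- The column vector `(x, y)`. -/
def Col.mk {N : ℕ} (x y : ZMod N) : Col N := (x, y)

/-- First coordinate. -/
def Col.x {N : ℕ} (v : Col N) : ZMod N := Prod.fst v

/-- Second coordinate. -/
def Col.y {N : ℕ} (v : Col N) : ZMod N := Prod.snd v

@[simp] theorem Col.x_mk {N : ℕ} (x y : ZMod N) : (Col.mk x y).x = x := rfl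
@[simp] theorem Col.y_mk {N : ℕ} (x y : ZMod N) : (Col.mk x y).y = y := rfl

@[ext] theorem Col.ext {N : ℕ} {v w : Col N} (hx : v.x = w.x) (hy : v.y = w.y) : v = w :=
  Prod.ext hx hy

instance (N : ℕ) : SMul SL(2, ℤ) (Col N) :=
  ⟨fun γ v => Col.mk (((γ 0 0 : ℤ) : ZMod N) * v.x + ((γ 0 1 : ℤ) : ZMod N) * v.y)
    (((γ 1 0 : ℤ) : ZMod N) * v.x + ((γ 1 1 : ℤ) : ZMod N) * v.y)⟩

theorem Col.smul_def {N : ℕ} (γ : SL(2, ℤ)) (v : Col N) :
    γ • v = Col.mk (((γ 0 0 : ℤ) : ZMod N) * v.x + ((γ 0 1 : ℤ) : ZMod N) * v.y)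
      (((γ 1 0 : ℤ) : ZMod N) * v.x + ((γ 1 1 : ℤ) : ZMod N) * v.y) := rfl

@[simp] theorem Col.smul_x {N : ℕ} (γ : SL(2, ℤ)) (v : Col N) :
    (γ • v).x = ((γ 0 0 : ℤ) : ZMod N) * v.x + ((γ 0 1 : ℤ) : ZMod N) * v.y := rfl

@[simp] theorem Col.smul_y {N : ℕ} (γ : SL(2, ℤ)) (v : Col N) :
    (γ • v).y = ((γ 1 0 : ℤ) : ZMod N) * v.x + ((γ 1 1 : ℤ) : ZMod N) * v.y := rfl

instance (N : ℕ) : MulAction SL(2, ℤ) (Col N) where
  one_smul v := by
    ext <;> simp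
  mul_smul γ δ v := by
    ext
    · simp only [Col.smul_x, Col.smul_y, Matrix.SpecialLinearGroup.coe_mul, Matrix.mul_apply,
        Fin.sum_univ_two]
      push_cast
      ring
    · simp only [Col.smul_x, Col.smul_y, Matrix.SpecialLinearGroup.coe_mul, Matrix.mul_apply,
        Fin.sum_univ_two]
      push_cast
      ring

/-- The base point `e₁ = (1, 0)`. -/
def e₁ (N : ℕ) : Col N := Col.mk 1 0

theorem smul_e₁ {N : ℕ} (γ : SL(2, ℤ)) :
    γ • e₁ N = Col.mk ((γ 0 0 : ℤ) : ZMod N) ((γ 1 0 : ℤ) : ZMod N) := by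
  ext <;> simp [e₁]

theorem det_cast {N : ℕ} (γ : SL(2, ℤ)) :
    ((γ 0 0 : ℤ) : ZMod N) * ((γ 1 1 : ℤ) : ZMod N) -
      ((γ 0 1 : ℤ) : ZMod N) * ((γ 1 0 : ℤ) : ZMod N) = 1 := by
  have h := Matrix.SpecialLinearGroup.det_coe γ
  rw [Matrix.det_fin_two] at h
  have h2 := congrArg (Int.cast : ℤ → ZMod N) h
  push_cast at h2
  exact h2

/-- The orbit of `e₁` consists of the primitive vectors. -/
theorem orbit_e₁ (N : ℕ) [NeZero N] :
    MulAction.orbit SL(2, ℤ) (e₁ N) = {v : Col N | IsCoprime v.x v.y} := by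
  ext v
  constructor
  · rintro ⟨γ, rfl⟩
    show IsCoprime (γ • e₁ N).x (γ • e₁ N).y
    rw [smul_e₁]
    refine ⟨((γ 1 1 : ℤ) : ZMod N), -((γ 0 1 : ℤ) : ZMod N), ?_⟩
    have := det_cast (N := N) γ
    simp only [Col.x_mk, Col.y_mk]
    linear_combination this
  · intro hv
    obtain ⟨γ, h0, h1⟩ := exists_SL2_col_mod N v.x v.y hv
    refine ⟨γ, ?_⟩
    show γ • e₁ N = v
    rw [smul_e₁]
    ext
    · simpa using h0
    · simpa using h1

theorem stabilizer_e₁_le (N : ℕ) : MulAction.stabilizer SL(2, ℤ) (e₁ N) ≤ Gamma0 N := by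
  intro γ hγ
  rw [MulAction.mem_stabilizer_iff, smul_e₁] at hγ
  rw [Gamma0_mem]
  have := congrArg Col.y hγ
  simpa [e₁] using this

theorem index_stabilizer_e₁ (N : ℕ) [NeZero N] :
    (MulAction.stabilizer SL(2, ℤ) (e₁ N)).index = N.totient * dedekindPsi N := by
  rw [MulAction.index_stabilizer, orbit_e₁, ← card_prim_zmod N (NeZero.pos N),
    ← Nat.card_coe_set_eq]
  rfl

/-- The orbit of `e₁` under `Γ₀(N)`. -/
theorem orbit_Gamma0_e₁ (N : ℕ) [NeZero N] :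
    MulAction.orbit (Gamma0 N) (e₁ N) = {v : Col N | IsUnit v.x ∧ v.y = 0} := by
  ext v
  constructor
  · rintro ⟨γ, rfl⟩
    show IsUnit (γ • e₁ N).x ∧ (γ • e₁ N).y = 0
    rw [Subgroup.smul_def, smul_e₁]
    have hγ : (((γ : SL(2, ℤ)) 1 0 : ℤ) : ZMod N) = 0 := Gamma0_mem.1 γ.2
    have hdet := det_cast (N := N) (γ : SL(2, ℤ))
    rw [hγ, mul_zero, sub_zero] at hdet
    exact ⟨IsUnit.of_mul_eq_one _ hdet, hγ⟩
  · rintro ⟨hx, hy⟩
    have hcop : IsCoprime v.x v.y := by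
      obtain ⟨u, hu⟩ := hx
      exact ⟨(↑u⁻¹ : ZMod N), 0, by rw [← hu]; simp⟩
    obtain ⟨γ, h0, h1⟩ := exists_SL2_col_mod N v.x v.y hcop
    have hγ : γ ∈ Gamma0 N := by
      rw [Gamma0_mem, h1, hy]
    refine ⟨⟨γ, hγ⟩, ?_⟩
    show (⟨γ, hγ⟩ : Gamma0 N) • e₁ N = v
    rw [Subgroup.smul_def, smul_e₁]
    ext
    · simpa using h0
    · simpa using h1

theorem relIndex_stabilizer_e₁ (N : ℕ) [NeZero N] :
    (MulAction.stabilizer SL(2, ℤ) (e₁ N)).relIndex (Gamma0 N) = N.totient := by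
  have h1 : (MulAction.stabilizer SL(2, ℤ) (e₁ N)).subgroupOf (Gamma0 N) =
      MulAction.stabilizer (Gamma0 N) (e₁ N) := by
    ext γ
    rw [Subgroup.mem_subgroupOf, MulAction.mem_stabilizer_iff, MulAction.mem_stabilizer_iff,
      Subgroup.smul_def]
  rw [Subgroup.relIndex, h1, MulAction.index_stabilizer, orbit_Gamma0_e₁,
    ← card_isUnit_zmod N, ← Nat.card_coe_set_eq]
  refine Nat.card_congr
    { toFun := fun v => ⟨v.1.x, v.2.1⟩
      invFun := fun x => ⟨Col.mk x.1 0, x.2, rfl⟩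
      left_inv := fun v => ?_
      right_inv := fun x => rfl }
  apply Subtype.ext
  ext
  · rfl
  · exact v.2.2.symm

/-- **WP-C1**: the index of `Γ₀(N)` in `SL(2, ℤ)` is the Dedekind `ψ` function. -/
theorem index_Gamma0 (N : ℕ) [NeZero N] : (Gamma0 N).index = dedekindPsi N := by
  have h := Subgroup.relIndex_mul_index (stabilizer_e₁_le N)
  rw [relIndex_stabilizer_e₁, index_stabilizer_e₁] at h
  exact Nat.eq_of_mul_eq_mul_left (Nat.totient_pos.2 (NeZero.pos N)) h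

end Fermat.Agent.S21.C1
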