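import Mathlib
import Fermat.Prelude.Def_ModularCurve_X0

/-!
# Project ES, WP-C1 (part 1): counting primitive pairs modulo `N`

`Prim R` is the type of pairs `(a, c) : R × R` generating the unit ideal.  We show that
`Nat.card (Prim (ZMod N)) = φ(N) * ψ(N)` for `N ≥ 1`, where `ψ = ModularCurve.dedekindPsi`.
-/

set_option autoImplicit false

namespace Fermat.Agent.S21.C1

open ModularCurve

/-- Pairs `(a, c)` of elements of `R` generating the unit ideal. -/
def Prim (R : Type*) [CommRing R] : Type _ := {p : R × R // IsCoprime p.1 p.2}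

/-- `Prim` is functorial for ring isomorphisms. -/
def primCongr {R S : Type*} [CommRing R] [CommRing S] (e : R ≃+* S) : Prim R ≃ Prim S where
  toFun p := ⟨(e p.1.1, e p.1.2), IsCoprime.map p.2 (e : R →+* S)⟩
  invFun p := ⟨(e.symm p.1.1, e.symm p.1.2), IsCoprime.map p.2 (e.symm : S →+* R)⟩
  left_inv p := by
    apply Subtype.ext
    simp
  right_inv p := by
    apply Subtype.ext
    simp

theorem isCoprime_prod_iff {R S : Type*} [CommRing R] [CommRing S] (a c : R × S) :
    IsCoprime a c ↔ IsCoprime a.1 c.1 ∧ IsCoprime a.2 c.2 := by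
  constructor
  · rintro ⟨r, s, h⟩
    exact ⟨⟨r.1, s.1, congrArg Prod.fst h⟩, ⟨r.2, s.2, congrArg Prod.snd h⟩⟩
  · rintro ⟨⟨r, s, h⟩, ⟨r', s', h'⟩⟩
    exact ⟨(r, r'), (s, s'), Prod.ext h h'⟩

/-- `Prim` of a product ring. -/
def primProd (R S : Type*) [CommRing R] [CommRing S] : Prim (R × S) ≃ Prim R × Prim S where
  toFun p := (⟨(p.1.1.1, p.1.2.1), ((isCoprime_prod_iff _ _).1 p.2).1⟩,
    ⟨(p.1.1.2, p.1.2.2), ((isCoprime_prod_iff _ _).1 p.2).2⟩)
  invFun q := ⟨((q.1.1.1, q.2.1.1), (q.1.1.2, q.2.1.2)),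
    (isCoprime_prod_iff _ _).2 ⟨q.1.2, q.2.2⟩⟩
  left_inv p := by
    apply Subtype.ext
    rfl
  right_inv q := by
    rfl

theorem card_prim_mul {m n : ℕ} (h : m.Coprime n) :
    Nat.card (Prim (ZMod (m * n))) = Nat.card (Prim (ZMod m)) * Nat.card (Prim (ZMod n)) := by
  rw [← Nat.card_prod]
  exact Nat.card_congr ((primCongr (ZMod.chineseRemainder h)).trans (primProd _ _))

theorem card_prim_one : Nat.card (Prim (ZMod 1)) = 1 := by
  have : Subsingleton (Prim (ZMod 1)) :=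
    ⟨fun a b => Subtype.ext (Subsingleton.elim _ _)⟩
  have : Nonempty (Prim (ZMod 1)) := ⟨⟨(1, 1), isCoprime_one_left⟩⟩
  exact Nat.card_unique

/-! ### Prime powers -/

theorem isCoprime_iff_isUnit_or_of_prime_pow {p k : ℕ} (hp : p.Prime) (hk : 0 < k)
    (a c : ZMod (p ^ k)) : IsCoprime a c ↔ IsUnit a ∨ IsUnit c := by
  constructor
  · intro h
    by_contra hcon
    obtain ⟨ha, hc⟩ := not_or.mp hcon
    have : NeZero (p ^ k) := ⟨pow_ne_zero _ hp.ne_zero⟩
    -- non-units are multiples of `p`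
    have key : ∀ x : ZMod (p ^ k), ¬ IsUnit x → (p : ZMod (p ^ k)) ∣ x := by
      intro x hx
      obtain ⟨n, rfl⟩ : ∃ n : ℕ, (n : ZMod (p ^ k)) = x := ⟨x.val, ZMod.natCast_zmod_val x⟩
      rw [ZMod.isUnit_iff_coprime] at hx
      have hpn : p ∣ n := by
        by_contra hpn
        exact hx (Nat.Coprime.pow_right k ((Nat.Prime.coprime_iff_not_dvd hp).2 hpn).symm)
      obtain ⟨m, rfl⟩ := hpn
      exact ⟨(m : ZMod (p ^ k)), by push_cast; rfl⟩
    obtain ⟨r, s, hrs⟩ := h
    have h1 : (p : ZMod (p ^ k)) ∣ 1 := by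
      rw [← hrs]
      exact dvd_add (Dvd.dvd.mul_left (key a ha) r) (Dvd.dvd.mul_left (key c hc) s)
    have h2 : IsUnit ((p : ℕ) : ZMod (p ^ k)) := isUnit_of_dvd_one h1
    rw [ZMod.isUnit_iff_coprime] at h2
    have h3 : p ∣ p ^ k := dvd_pow_self p hk.ne'
    have := Nat.Coprime.eq_one_of_dvd h2 h3
    exact hp.one_lt.ne' this
  · rintro (h | h)
    · obtain ⟨u, rfl⟩ := h
      exact ⟨(↑u⁻¹ : ZMod (p ^ k)), 0, by simp⟩
    · obtain ⟨u, rfl⟩ := h
      exact ⟨0, (↑u⁻¹ : ZMod (p ^ k)), by simp⟩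

/-- Units as a subtype. -/
noncomputable def unitsEquivSubtype (M : Type*) [Monoid M] : Mˣ ≃ {x : M // IsUnit x} where
  toFun u := ⟨u, u.isUnit⟩
  invFun x := x.2.unit
  left_inv _ := Units.ext rfl
  right_inv x := Subtype.ext (IsUnit.unit_spec x.2)

theorem card_isUnit_zmod (N : ℕ) [NeZero N] :
    Nat.card {x : ZMod N // IsUnit x} = N.totient := by
  rw [← ZMod.card_units_eq_totient, ← Nat.card_eq_fintype_card]
  exact (Nat.card_congr (unitsEquivSubtype (ZMod N))).symm

theorem card_nonunits_prime_pow {p k : ℕ} (hp : p.Prime) (hk : 0 < k) :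
    Nat.card {x : ZMod (p ^ k) // ¬ IsUnit x} = p ^ (k - 1) := by
  have : NeZero (p ^ k) := ⟨pow_ne_zero _ hp.ne_zero⟩
  classical
  have h1 : Nat.card {x : ZMod (p ^ k) // IsUnit x} = (p ^ k).totient := card_isUnit_zmod _
  have h2 : Nat.card {x : ZMod (p ^ k) // IsUnit x} + Nat.card {x : ZMod (p ^ k) // ¬ IsUnit x}
      = p ^ k := by
    rw [Nat.card_eq_fintype_card, Nat.card_eq_fintype_card, Fintype.card_subtype_compl,
      ← Nat.card_eq_fintype_card (α := {x : ZMod (p ^ k) // IsUnit x})]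
    have hle : Fintype.card {x : ZMod (p ^ k) // IsUnit x} ≤ Fintype.card (ZMod (p ^ k)) :=
      Fintype.card_subtype_le _
    rw [Nat.card_eq_fintype_card, ZMod.card] at *
    omega
  rw [h1, Nat.totient_prime_pow hp hk] at h2
  have h3 : p ^ k = p ^ (k - 1) * p := by
    rw [← pow_succ, Nat.sub_add_cancel hk]
  have h4 : p ^ (k - 1) * (p - 1) + p ^ (k - 1) = p ^ (k - 1) * p := by
    have := hp.one_lt
    rw [← Nat.mul_succ]
    congr 1
    omega
  omega

theorem card_prim_prime_pow {p k : ℕ} (hp : p.Prime) (hk : 0 < k) :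
    Nat.card (Prim (ZMod (p ^ k))) + (p ^ (k - 1)) ^ 2 = (p ^ k) ^ 2 := by
  have : NeZero (p ^ k) := ⟨pow_ne_zero _ hp.ne_zero⟩
  classical
  have e1 : Prim (ZMod (p ^ k)) ≃
      {q : ZMod (p ^ k) × ZMod (p ^ k) // ¬ (¬ IsUnit q.1 ∧ ¬ IsUnit q.2)} :=
    Equiv.subtypeEquivRight fun q => by
      rw [isCoprime_iff_isUnit_or_of_prime_pow hp hk]
      tauto
  have e2 : {q : ZMod (p ^ k) × ZMod (p ^ k) // ¬ IsUnit q.1 ∧ ¬ IsUnit q.2} ≃
      {x : ZMod (p ^ k) // ¬ IsUnit x} × {x : ZMod (p ^ k) // ¬ IsUnit x} :=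
    Equiv.subtypeProdEquivProd (p := fun x => ¬ IsUnit x) (q := fun x => ¬ IsUnit x)
  have h2 : Nat.card {q : ZMod (p ^ k) × ZMod (p ^ k) // ¬ IsUnit q.1 ∧ ¬ IsUnit q.2}
      = (p ^ (k - 1)) ^ 2 := by
    rw [Nat.card_congr e2, Nat.card_prod, card_nonunits_prime_pow hp hk, sq]
  rw [Nat.card_congr e1, ← h2]
  rw [Nat.card_eq_fintype_card, Nat.card_eq_fintype_card, Fintype.card_subtype_compl]
  have hle : Fintype.card {q : ZMod (p ^ k) × ZMod (p ^ k) // ¬ IsUnit q.1 ∧ ¬ IsUnit q.2}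
      ≤ Fintype.card (ZMod (p ^ k) × ZMod (p ^ k)) := Fintype.card_subtype_le _
  rw [Fintype.card_prod, ZMod.card] at *
  rw [sq]
  omega

/-! ### The Dedekind `ψ` function is multiplicative -/

/-- The indicator function of squarefree numbers as an arithmetic function. -/
def sqfInd : ArithmeticFunction ℕ :=
  ⟨fun n => if Squarefree n then 1 else 0, by simp⟩

theorem sqfInd_apply (n : ℕ) : sqfInd n = if Squarefree n then 1 else 0 := rfl

theorem isMultiplicative_sqfInd : sqfInd.IsMultiplicative := by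
  refine ⟨by simp [sqfInd_apply], ?_⟩
  intro m n hmn
  simp only [sqfInd_apply, Nat.squarefree_mul hmn]
  by_cases hm : Squarefree m <;> by_cases hn : Squarefree n <;> simp [hm, hn]

theorem dedekindPsi_eq_conv (N : ℕ) :
    dedekindPsi N = (sqfInd * ArithmeticFunction.id) N := by
  rw [ArithmeticFunction.mul_apply, dedekindPsi, Finset.sum_filter,
    Nat.sum_divisorsAntidiagonal (f := fun i j => sqfInd i * ArithmeticFunction.id j)]
  refine Finset.sum_congr rfl fun d _ => ?_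
  simp only [sqfInd_apply, ArithmeticFunction.id_apply]
  split_ifs <;> simp

theorem dedekindPsi_mul {m n : ℕ} (h : m.Coprime n) :
    dedekindPsi (m * n) = dedekindPsi m * dedekindPsi n := by
  simp only [dedekindPsi_eq_conv]
  exact (isMultiplicative_sqfInd.mul ArithmeticFunction.isMultiplicative_id).map_mul_of_coprime h

theorem dedekindPsi_prime_pow {p k : ℕ} (hp : p.Prime) (hk : 0 < k) :
    dedekindPsi (p ^ k) = p ^ k + p ^ (k - 1) := by
  obtain ⟨j, rfl⟩ : ∃ j, k = j + 1 := ⟨k - 1, by omega⟩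
  rw [dedekindPsi, Finset.sum_filter, Nat.sum_divisors_prime_pow hp]
  rw [Finset.sum_range_succ', Finset.sum_range_succ']
  have hzero : ∑ i ∈ Finset.range j,
      (if Squarefree (p ^ (i + 1 + 1)) then p ^ (j + 1) / p ^ (i + 1 + 1) else 0) = 0 := by
    refine Finset.sum_eq_zero fun i _ => ?_
    have : ¬ Squarefree (p ^ (i + 1 + 1)) := by
      rw [Nat.squarefree_pow_iff hp.ne_one (by omega)]
      omega
    rw [if_neg this]
  rw [hzero]
  have h1 : Squarefree (p ^ (0 + 1)) := by simpa using hp.squarefree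
  have h0 : Squarefree (p ^ 0) := by simp
  rw [if_pos h1, if_pos h0]
  simp only [zero_add, pow_zero, Nat.div_one, pow_one, Nat.add_sub_cancel]
  rw [pow_succ, Nat.mul_div_cancel _ hp.pos]
  ring

/-! ### The count -/

theorem card_prim_zmod (N : ℕ) (hN : 0 < N) :
    Nat.card (Prim (ZMod N)) = N.totient * dedekindPsi N := by
  induction N using Nat.recOnPosPrimePosCoprime with
  | prime_pow p k hp hk =>
    have h1 := card_prim_prime_pow hp hk
    rw [dedekindPsi_prime_pow hp hk, Nat.totient_prime_pow hp hk]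
    have h3 : p ^ k = p ^ (k - 1) * p := by
      rw [← pow_succ, Nat.sub_add_cancel hk]
    obtain ⟨q, hq⟩ : ∃ q, p = q + 1 := ⟨p - 1, by have := hp.pos; omega⟩
    have h4 : p - 1 = q := by omega
    rw [h4]
    have h5 : (p ^ (k - 1) * q * (p ^ k + p ^ (k - 1))) + (p ^ (k - 1)) ^ 2 = (p ^ k) ^ 2 := by
      rw [h3, hq]
      ring
    omega
  | zero => exact absurd hN (lt_irrefl 0)
  | one => simp [card_prim_one]
  | coprime a b ha hb hab iha ihb =>
    rw [card_prim_mul hab, iha (by omega), ihb (by omega), Nat.totient_mul hab,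
      dedekindPsi_mul hab]
    ring

end Fermat.Agent.S21.C1
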